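/-
S59 PRE-WORK / GE9-ETA-FRICKE (helper2), file 1 (Z1): **the Fricke involution on the lattices
`Lam M = Hom_par(Γ₀(M), ℤ)`**.

`W_M = (0, -1; M, 0)` normalises `Γ₀(M)`: `W g W⁻¹ = (d, -c/M; -M b, a)`.
* `frHom M : Γ₀(M) →* Γ₀(M)`, `frHom_frHom` (an involution), `frMat_rel`;
* `frOp M A`, `frP M A` : the operator `ψ ↦ ψ ∘ frHom` on `Hom(Γ₀(M), A)` and on the parabolic part;
* `lamB_frP_frP` : an isometry of the unimodular cup form (`Outer.lamForm_isometry`);
  `lamB_frP_left` : self-adjoint;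
* **intertwining** `frOp (M q) (res ψ) = resD (frOp M ψ)` (`W_{M q} = W_M δ`), for ANY `M`, `q`.
-/
import Fermat.Agent.GM.Theta.Outer
import Fermat.Agent.GE9.Adj3.Sys2

set_option autoImplicit false
set_option linter.unusedSectionVars false
set_option linter.unnecessarySeqFocus false

open scoped MatrixGroups
open CongruenceSubgroup Matrix Matrix.SpecialLinearGroup ModularCurve.Period
open P2MW.S_ModularForm_heckeT_slash_eq_self_of_mem_Gamma0.ModularForm.HeckeSlashInvariance
open P2MW.S_ModularForm_heckeT_slash_eq_self_of_mem_Gamma0.ModularForm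
open Fermat.Agent.S16_helper49 Fermat.Agent.GM.Amalgam Fermat.Agent.GM.B Fermat.Agent.GM.Bridge
  Fermat.Agent.GM.PD Fermat.Agent.GJ.J2.Lat Fermat.Agent.GM.Asm
open Fermat.Agent.GM.Theta.Outer Fermat.Agent.GE9.Adj3

namespace Fermat.Agent.GE9.Fricke

/-! ### the matrix -/

/-- the Fricke matrix `W_M = (0, -1; M, 0) ∈ GL(2,ℚ)⁺` -/
noncomputable def frQ (M : ℕ) [NeZero M] : GL(2, ℚ)⁺ :=
  ⟨Matrix.GeneralLinearGroup.mkOfDetNeZero !![(0 : ℚ), -1; (M : ℚ), 0]
      (by rw [Matrix.det_fin_two_of]; simpa using NeZero.ne M),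
    by
      rw [Matrix.mem_glpos]
      show 0 < (!![(0 : ℚ), -1; (M : ℚ), 0] : Matrix (Fin 2) (Fin 2) ℚ).det
      rw [Matrix.det_fin_two_of]
      have : (0 : ℚ) < M := by exact_mod_cast Nat.pos_of_ne_zero (NeZero.ne M)
      simpa using this⟩

/-- the real Fricke matrix -/
noncomputable def frMat (M : ℕ) [NeZero M] : GL (Fin 2) ℝ := toR (frQ M)

theorem frMat_val (M : ℕ) [NeZero M] :
    ((frMat M : GL (Fin 2) ℝ) : Matrix (Fin 2) (Fin 2) ℝ) = !![(0 : ℝ), -1; (M : ℝ), 0] := by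
  ext i j
  rw [frMat, toR_apply]
  fin_cases i <;> fin_cases j <;>
    simp [Fermat.Agent.GM.Theta.mat, frQ, Matrix.GeneralLinearGroup.mkOfDetNeZero]

variable {M : ℕ} [NeZero M]

/-- `W g W⁻¹ = (d, -c/M; -M b, a)` -/
noncomputable def frFun (g : Gamma0 M) : SL(2, ℤ) :=
  mkZ ((g : SL(2, ℤ)) 1 1) (-cQuot g) (-((M : ℤ) * (g : SL(2, ℤ)) 0 1)) ((g : SL(2, ℤ)) 0 0)
    (by
      have h1 := det_eq_one (g : SL(2, ℤ))
      have h2 := cQuot_spec g
      rw [h2] at h1
      linear_combination h1)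

theorem frFun_mem (g : Gamma0 M) : frFun g ∈ Gamma0 M :=
  mem_Gamma0_of_dvd ⟨-((g : SL(2, ℤ)) 0 1), by simp [frFun]⟩

theorem frMat_rel_fun (g : Gamma0 M) :
    frMat M * embR (g : SL(2, ℤ)) = embR (frFun g) * frMat M := by
  have h2 : (((g : SL(2, ℤ)) 1 0 : ℤ) : ℝ) = (M : ℝ) * (cQuot g : ℝ) := by
    exact_mod_cast cQuot_spec g
  ext a b
  simp only [Matrix.GeneralLinearGroup.coe_mul, Matrix.mul_apply, Fin.sum_univ_two, frMat_val]
  fin_cases a <;> fin_cases b <;> simp [frFun, mkZ, h2] <;> ring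

/-- **conjugation by `W_M`** as an endomorphism of `Γ₀(M)` -/
noncomputable def frHom (M : ℕ) [NeZero M] : Gamma0 M →* Gamma0 M where
  toFun g := ⟨frFun g, frFun_mem g⟩
  map_one' := by
    apply Subtype.ext
    apply embR_injective
    have h := frMat_rel_fun (1 : Gamma0 M)
    rw [Subgroup.coe_one, map_one, mul_one] at h
    rw [Subgroup.coe_one, map_one]
    have h' : embR (frFun (1 : Gamma0 M)) * frMat M = 1 * frMat M := by rw [one_mul]; exact h.symm
    exact mul_right_cancel h'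
  map_mul' g h := by
    apply Subtype.ext
    apply embR_injective
    have h1 := frMat_rel_fun (g * h)
    have h2 := frMat_rel_fun g
    have h3 := frMat_rel_fun h
    rw [Subgroup.coe_mul, map_mul, ← mul_assoc, h2, mul_assoc, h3, ← mul_assoc] at h1
    rw [Subgroup.coe_mul, map_mul]
    exact (mul_right_cancel h1).symm

theorem frHom_coe (g : Gamma0 M) : ((frHom M g : Gamma0 M) : SL(2, ℤ)) = frFun g := rfl

theorem frMat_rel (g : Gamma0 M) :
    frMat M * embR (g : SL(2, ℤ)) = embR ((frHom M g : Gamma0 M) : SL(2, ℤ)) * frMat M :=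
  frMat_rel_fun g

/-- `W² = -M` is central -/
theorem frMat_sq_comm (X : GL (Fin 2) ℝ) : frMat M * frMat M * X = X * (frMat M * frMat M) := by
  ext a b
  simp only [Matrix.GeneralLinearGroup.coe_mul, Matrix.mul_apply, Fin.sum_univ_two, frMat_val]
  fin_cases a <;> fin_cases b <;> simp <;> ring

/-- **the Fricke conjugation is an involution** -/
theorem frHom_frHom (g : Gamma0 M) : frHom M (frHom M g) = g := by
  apply Subtype.ext
  apply embR_injective
  have h1 := frMat_rel g
  have h2 := frMat_rel (frHom M g)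
  have h4 : frMat M * frMat M * embR (g : SL(2, ℤ))
      = embR ((frHom M (frHom M g) : Gamma0 M) : SL(2, ℤ)) * (frMat M * frMat M) := by
    rw [mul_assoc, h1, ← mul_assoc, h2, mul_assoc]
  rw [frMat_sq_comm] at h4
  exact (mul_right_cancel h4).symm

theorem frHom_surjective : Function.Surjective (frHom M) := fun g => ⟨frHom M g, frHom_frHom g⟩

/-! ### the operator -/

/-- the coset system of `W_M` -/
noncomputable def frSys (M : ℕ) [NeZero M] : CosetSys embR (Gamma0 M) (Gamma0 M) :=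
  CosetSys.single embR (frMat M) (frHom M) frMat_rel

/-- the Fricke operator on `Hom(Γ₀(M), A)` -/
noncomputable def frOp (M : ℕ) [NeZero M] (A : Type*) [AddCommGroup A] :
    (Additive (Gamma0 M) →+ A) →+ (Additive (Gamma0 M) →+ A) :=
  (frSys M).op A

theorem frOp_apply {A : Type*} [AddCommGroup A] (z : Additive (Gamma0 M) →+ A) (g : Gamma0 M) :
    frOp M A z (Additive.ofMul g) = z (Additive.ofMul (frHom M g)) :=
  CosetSys.single_op_apply _ _ _ z g

theorem frOp_frOp {A : Type*} [AddCommGroup A] (z : Additive (Gamma0 M) →+ A) :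
    frOp M A (frOp M A z) = z := by
  refine AddMonoidHom.ext fun g => ?_
  obtain ⟨g, rfl⟩ : ∃ g' : Gamma0 M, Additive.ofMul g' = g := ⟨Additive.toMul g, rfl⟩
  rw [frOp_apply, frOp_apply, frHom_frHom]

/-- the Fricke operator on the parabolic lattices -/
noncomputable def frP (M : ℕ) [NeZero M] (A : Type*) [AddCommGroup A] :
    parabolicHoms ℤ (Gamma0 M) A →+ parabolicHoms ℤ (Gamma0 M) A :=
  opPar (frSys M) A

@[simp] theorem frP_coe {A : Type*} [AddCommGroup A] (x : parabolicHoms ℤ (Gamma0 M) A) :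
    ((frP M A x : parabolicHoms ℤ (Gamma0 M) A) : Additive (Gamma0 M) →+ A) = frOp M A x.1 := rfl

theorem frP_frP {A : Type*} [AddCommGroup A] (x : parabolicHoms ℤ (Gamma0 M) A) :
    frP M A (frP M A x) = x :=
  Subtype.ext (frOp_frOp x.1)

/-! ### the isometry -/

theorem toR_frQ : toR (frQ M) = frMat M := rfl

theorem frQ_rel (g : Gamma0 M) :
    frQ M * Fermat.Agent.GM.Theta.emb (g : SL(2, ℤ))
      = Fermat.Agent.GM.Theta.emb ((frHom M g : Gamma0 M) : SL(2, ℤ)) * frQ M := by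
  apply toR_injective
  rw [map_mul, map_mul, toR_frQ, toR_emb, toR_emb]
  exact frMat_rel g

attribute [local instance] quotFintype quotDecEq

/-- **the Fricke involution is an isometry of the unimodular cup form of level `M`** -/
theorem lamB_frP_frP (x y : Lam M) : lamB M (frP M ℤ x) (frP M ℤ y) = lamB M x y :=
  lamForm_isometry (frQ M) (frHom M) frQ_rel frHom_surjective
    (Fermat.Agent.GM.Asm.neg_one_mem_Gamma0 M) (frOp M ℤ) (fun ψ g => frOp_apply ψ g) (frP M ℤ)
    (fun _ => rfl) x y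

/-- **the Fricke involution is self-adjoint** -/
theorem lamB_frP_left (x z : Lam M) : lamB M (frP M ℤ x) z = lamB M x (frP M ℤ z) := by
  conv_lhs => rw [← frP_frP z]
  exact lamB_frP_frP x (frP M ℤ z)

/-! ### intertwining `res` and `res_δ` -/

section Inter

variable {q : ℕ} [Fact q.Prime] [NeZero (M * q)]

/-- `W_{M q} = W_M δ` -/
theorem frMat_mul_dlt : frMat (M * q) = frMat M * dlt q := by
  have hq : q ≠ 0 := q_ne_zero'
  ext a b
  simp only [Matrix.GeneralLinearGroup.coe_mul, Matrix.mul_apply, Fin.sum_univ_two, frMat_val]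
  fin_cases a <;> fin_cases b <;> simp [hq]

/-- `W_{M q} g W_{M q}⁻¹ = W_M (δ g δ⁻¹) W_M⁻¹` -/
theorem degenOne_frHom (g : Gamma0 (M * q)) :
    degenOne M q (frHom (M * q) g) = frHom M (degenDelta M q g) := by
  apply Subtype.ext
  apply embR_injective
  rw [degenOne_coe]
  have h1 := frMat_rel (M := M * q) g
  have h2 := dlt_rel_degenDelta (N := M) g
  have h3 := frMat_rel (M := M) (degenDelta M q g)
  rw [frMat_mul_dlt, mul_assoc, h2, ← mul_assoc, h3, mul_assoc] at h1
  exact (mul_right_cancel h1).symm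

/-- **intertwining**: `W_{M q} ∘ res = res_δ ∘ W_M` -/
theorem frOp_res {A : Type*} [AddCommGroup A] (ψ : Additive (Gamma0 M) →+ A) :
    frOp (M * q) A (res A M q ψ) = resD A M q (frOp M A ψ) := by
  refine AddMonoidHom.ext fun g => ?_
  obtain ⟨g, rfl⟩ : ∃ g' : Gamma0 (M * q), Additive.ofMul g' = g := ⟨Additive.toMul g, rfl⟩
  rw [frOp_apply, res_apply, resD_apply, frOp_apply, degenOne_frHom]

/-- **intertwining**: `W_{M q} ∘ res_δ = res ∘ W_M` -/
theorem frOp_resD {A : Type*} [AddCommGroup A] (ψ : Additive (Gamma0 M) →+ A) :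
    frOp (M * q) A (resD A M q ψ) = res A M q (frOp M A ψ) := by
  have h := frOp_res (q := q) (frOp M A ψ)
  rw [frOp_frOp] at h
  rw [← h, frOp_frOp]

theorem frP_resP (x : Lam M) : frP (M * q) ℤ (resP ℤ M q x) = resDP ℤ M q (frP M ℤ x) :=
  Subtype.ext (frOp_res x.1)

theorem frP_resDP (x : Lam M) : frP (M * q) ℤ (resDP ℤ M q x) = resP ℤ M q (frP M ℤ x) :=
  Subtype.ext (frOp_resD x.1)

end Inter

end Fermat.Agent.GE9.Fricke
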