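/-
S59 PRE-WORK / GE9-ETA-FRICKE (helper2), file 2 (Z2): **the full Hecke algebra is self-adjoint for
the Fricke-twisted cup form** `⟨x, y⟩_W := lamB M x (W y)`.

* `cohU_eq_fr` : for `ℓ ∣ M`, `U_ℓ = W ∘ cores2 ∘ res_δ ∘ W` on `Hom(Γ₀(M), A)`
  (representatives `W δ t_j W = (-M) · T^{-m} α_{-j}`);
* `lamB_latT_frP_of_dvd` : `⟨U_ℓ x, W y⟩ = ⟨x, W U_ℓ y⟩` (`ℓ ∣ M`), from the inner adjunction
  `res ⊣ cores2`, the isometry and the intertwining `W ∘ res = res_δ ∘ W`;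
* `lamB_latT_frP_of_not_dvd` : the same for `T_ℓ` (`ℓ ∤ M`), from `T_ℓ = cores ∘ res_δ`;
* **`lamB_latT_frP`** : for EVERY prime `l`,
  `lamB M (latT M l x) (frP M ℤ y) = lamB M x (frP M ℤ (latT M l y))`.
-/
import Fermat.Agent.GE9.Fricke.Basic
import Fermat.Agent.GM.B5.WT
import Fermat.Agent.GM.B5.UqSquare
import Fermat.Agent.GB.B5.Betti.SysTools

set_option autoImplicit false
set_option linter.unusedSectionVars false
set_option linter.unnecessarySeqFocus false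

open scoped MatrixGroups
open CongruenceSubgroup Matrix Matrix.SpecialLinearGroup ModularCurve.Period
open P2MW.S_ModularForm_heckeT_slash_eq_self_of_mem_Gamma0.ModularForm.HeckeSlashInvariance
open P2MW.S_ModularForm_heckeT_slash_eq_self_of_mem_Gamma0.ModularForm
open Fermat.Agent.S16_helper49 Fermat.Agent.GM.Amalgam Fermat.Agent.GM.B Fermat.Agent.GM.Bridge
  Fermat.Agent.GM.PD Fermat.Agent.GJ.J2.Lat Fermat.Agent.GM.Asm Fermat.Agent.GM.B5
open Fermat.Agent.GM.Theta.Outer Fermat.Agent.GE9.Adj3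

namespace Fermat.Agent.GE9.Fricke

/-! ### `U_ℓ = W ∘ cores2 ∘ res_δ ∘ W` -/

/-- the matrix identity `W δ t_j W = W² T^{-m} α_x` for `x + j = m ℓ` -/
theorem frMat_dlt_tRep_frMat (M ℓ xv jv : ℕ) [NeZero M] (hℓ : ℓ ≠ 0) (m : ℤ)
    (h : (xv : ℤ) + jv = m * ℓ) :
    frMat M * heckeDiagMatrix ℓ * embR (tRep M jv) * frMat M
      = frMat M * frMat M * embR (trZ (-m)) * heckeMatrix ℓ xv := by
  have hR : (xv : ℝ) + jv = m * ℓ := by exact_mod_cast h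
  ext a b
  simp only [Matrix.GeneralLinearGroup.coe_mul, Matrix.mul_apply, Fin.sum_univ_two, frMat_val]
  fin_cases a <;> fin_cases b <;> simp [hℓ, tRep, trZ, mkZ]
  · linear_combination (M : ℝ) * hR

section U

variable {M ℓ : ℕ} [NeZero M] [Fact ℓ.Prime] [NeZero ℓ]

theorem exists_val_add_val_neg (x : ZMod ℓ) :
    ∃ m : ℤ, ((x.val : ℕ) : ℤ) + (((-x).val : ℕ) : ℤ) = m * ℓ := by
  have h : ((x.val + (-x).val : ℕ) : ZMod ℓ) = 0 := by
    push_cast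
    rw [ZMod.natCast_zmod_val, ZMod.natCast_zmod_val, add_neg_cancel]
  obtain ⟨m, hm⟩ := (ZMod.natCast_eq_zero_iff _ ℓ).1 h
  refine ⟨m, ?_⟩
  have : ((x.val + (-x).val : ℕ) : ℤ) = ((ℓ * m : ℕ) : ℤ) := by rw [hm]
  push_cast at this
  rw [this, mul_comm]

/-- the composite system `W ∘ cores2 ∘ res_δ ∘ W` -/
noncomputable def frUSys (hℓM : ℓ ∣ M) : CosetSys embR (Gamma0 M) (Gamma0 M) :=
  (((frSys M).comp (resDSys M ℓ)).comp (coresSys2 hℓM)).comp (frSys M)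

theorem frUSys_op (hℓM : ℓ ∣ M) {A : Type*} [AddCommGroup A] (φ : Additive (Gamma0 M) →+ A) :
    (frUSys hℓM).op A φ = frOp M A (cores2 A hℓM (resD A M ℓ (frOp M A φ))) := by
  unfold frUSys
  rw [CosetSys.op_comp, CosetSys.op_comp, CosetSys.op_comp]
  rfl

/-- the index bijection `x ↦ -x` -/
def frUIdx (ℓ : ℕ) : ZMod ℓ ≃ ((Unit × Unit) × ZMod ℓ) × Unit where
  toFun x := ((((), ()), -x), ())
  invFun p := -p.1.2
  left_inv x := neg_neg x
  right_inv p := by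
    obtain ⟨⟨⟨⟨⟩, ⟨⟩⟩, j⟩, ⟨⟩⟩ := p
    show ((((), ()), - -j), ()) = _
    rw [neg_neg]

/-- **`U_ℓ = W ∘ cores2 ∘ res_δ ∘ W`** on `Hom(Γ₀(M), A)`, `ℓ ∣ M` -/
theorem cohU_eq_fr (hℓM : ℓ ∣ M) {A : Type*} [AddCommGroup A] (φ : Additive (Gamma0 M) →+ A) :
    cohU hℓM A φ = frOp M A (cores2 A hℓM (resD A M ℓ (frOp M A φ))) := by
  rw [← frUSys_op, ← uSys_op]
  symm
  refine Fermat.Agent.GB.B5.Betti.op_eq_of_reps (uSys hℓM) (frUSys hℓM) embR_injective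
    (frUIdx ℓ) (frMat M * frMat M) (fun x => (frMat_sq_comm x))
    (fun x : ZMod ℓ => (⟨trZ (-(exists_val_add_val_neg x).choose), trZ_mem M _⟩ : Gamma0 M)) ?_ φ
  intro x
  obtain ⟨x, rfl⟩ : ∃ x' : ZMod ℓ, x' = x := ⟨x, rfl⟩
  show frMat M * dlt ℓ * embR (tRep M (-x).val) * frMat M
    = frMat M * frMat M * embR (trZ (-(exists_val_add_val_neg x).choose)) * heckeMatrix ℓ x.val
  exact frMat_dlt_tRep_frMat M ℓ x.val (-x).val (NeZero.ne ℓ) _
    (exists_val_add_val_neg x).choose_spec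

end U

/-! ### adjointness -/

section Adj

attribute [local instance] quotFintype quotDecEq

variable {M : ℕ} [NeZero M]

/-- `⟨cores2 z, y⟩_M = ⟨z, res y⟩_{M q}`, `q ∣ M` -/
theorem lamB_cores2P_left {q : ℕ} [Fact q.Prime] [NeZero (M * q)] (hqM : q ∣ M) (z : Lam (M * q))
    (y : Lam M) : lamB M (cores2P ℤ hqM z) y = lamB (M * q) z (resP ℤ M q y) := by
  rw [lamB_skew M, ← lamB_resP_cores2P hqM, ← lamB_skew (M * q)]

/-- `⟨cores z, y⟩_M = ⟨z, res y⟩_{M q}`, `q ∤ M` -/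
theorem lamB_coresP_left {q : ℕ} [Fact q.Prime] [NeZero (M * q)] (hqM : ¬ q ∣ M) (z : Lam (M * q))
    (y : Lam M) : lamB M (coresP ℤ hqM z) y = lamB (M * q) z (resP ℤ M q y) := by
  rw [lamB_skew M, ← lamB_resP_coresP hqM, ← lamB_skew (M * q)]

/-- `latT M l = W ∘ cores2 ∘ res_δ ∘ W` for `l ∣ M` -/
theorem latT_eq_fr_of_dvd (l : Nat.Primes) [Fact (l : ℕ).Prime] [NeZero (M * (l : ℕ))]
    (hlM : (l : ℕ) ∣ M) (x : Lam M) :
    latT M l x = frP M ℤ (cores2P ℤ hlM (resDP ℤ M l (frP M ℤ x))) := by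
  have : NeZero (l : ℕ) := ⟨l.2.ne_zero⟩
  apply Subtype.ext
  rw [coe_latT, cohGen_of_dvd M ℤ l hlM, cohU_eq_fr hlM]
  rfl

/-- **`⟨U_l x, W y⟩ = ⟨x, W U_l y⟩`**, `l ∣ M` -/
theorem lamB_latT_frP_of_dvd (l : Nat.Primes) (hlM : (l : ℕ) ∣ M) (x y : Lam M) :
    lamB M (latT M l x) (frP M ℤ y) = lamB M x (frP M ℤ (latT M l y)) := by
  have : Fact (l : ℕ).Prime := ⟨l.2⟩
  have : NeZero (M * (l : ℕ)) := ⟨Nat.mul_ne_zero (NeZero.ne M) l.2.ne_zero⟩
  rw [latT_eq_fr_of_dvd l hlM x, latT_eq_fr_of_dvd l hlM y, frP_frP, lamB_frP_frP,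
    lamB_cores2P_left hlM, ← frP_resP, lamB_frP_left, frP_resP, lamB_resP_cores2P hlM]

/-- **`⟨T_l x, W y⟩ = ⟨x, W T_l y⟩`**, `l ∤ M` -/
theorem lamB_latT_frP_of_not_dvd (l : Nat.Primes) (hlM : ¬ (l : ℕ) ∣ M) (x y : Lam M) :
    lamB M (latT M l x) (frP M ℤ y) = lamB M x (frP M ℤ (latT M l y)) := by
  have : Fact (l : ℕ).Prime := ⟨l.2⟩
  have : NeZero (M * (l : ℕ)) := ⟨Nat.mul_ne_zero (NeZero.ne M) l.2.ne_zero⟩
  have e : ∀ u : Lam M, latT M l u = coresP ℤ hlM (resDP ℤ M l u) := by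
    intro u
    rw [← heckeP_eq_latT_primes l hlM]
    exact Subtype.ext (by rw [heckeP_coe, coresP_coe, resDP_coe, cores_comp_resD])
  rw [e x, e y, lamB_coresP_left hlM, ← frP_resDP, ← lamB_frP_left, frP_resDP,
    lamB_resP_coresP hlM, lamB_frP_left]

/-- **the full Hecke algebra is self-adjoint for the Fricke-twisted cup form**: for EVERY prime
`l` (`T_l` for `l ∤ M`, `U_l` for `l ∣ M`). -/
theorem lamB_latT_frP (l : Nat.Primes) (x y : Lam M) :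
    lamB M (latT M l x) (frP M ℤ y) = lamB M x (frP M ℤ (latT M l y)) := by
  by_cases hlM : (l : ℕ) ∣ M
  · exact lamB_latT_frP_of_dvd l hlM x y
  · exact lamB_latT_frP_of_not_dvd l hlM x y

/-- the Fricke involution commutes with `T_l`, `l ∤ M` -/
theorem frP_latT_of_not_dvd (l : Nat.Primes) (hlM : ¬ (l : ℕ) ∣ M) (x : Lam M) :
    frP M ℤ (latT M l x) = latT M l (frP M ℤ x) := by
  have h : ∀ y : Lam M, lamB M (frP M ℤ (latT M l x) - latT M l (frP M ℤ x)) y = 0 := by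
    intro y
    rw [map_sub, LinearMap.sub_apply, lamB_frP_left, lamB_latT_frP_of_not_dvd l hlM,
      lamB_latT l hlM, lamB_frP_left x (latT M l y), sub_self]
  have hinj := (lamB_bijective M).1
  have h0 : lamB M (frP M ℤ (latT M l x) - latT M l (frP M ℤ x)) = 0 :=
    LinearMap.ext fun y => by rw [h y]; rfl
  have := hinj (h0.trans (map_zero (lamB M)).symm)
  exact sub_eq_zero.1 this

end Adj

end Fermat.Agent.GE9.Fricke
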