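/-
S59 PRE-WORK / GE9-ETA-FRICKE (helper2), file 3 (Z5): **the Fricke involution reverses the three
degeneracy maps** `α₀ = res' res`, `α₁ = res' res_δ`, `α₂ = res_δ' res_δ : Lam N → Lam (N q²)`:

  `W_{N q²} (α₃ (u₀, u₁, u₂)) = α₃ (W_N u₂, W_N u₁, W_N u₀)`.

(`W_{M q} ∘ res = res_δ ∘ W_M` twice, and `res_δ' ∘ res = res' ∘ res_δ`.)  No coprimality needed.
-/
import Fermat.Agent.GE9.Fricke.Basic
import Fermat.Agent.GE9.Adj3.Main

set_option autoImplicit false
set_option linter.unusedSectionVars false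

open scoped MatrixGroups
open CongruenceSubgroup Matrix Matrix.SpecialLinearGroup ModularCurve.Period
open Fermat.Agent.S16_helper49 Fermat.Agent.GM.Amalgam Fermat.Agent.GM.B Fermat.Agent.GM.Bridge
  Fermat.Agent.GM.PD Fermat.Agent.GJ.J2.Lat Fermat.Agent.GM.Asm
open Fermat.Agent.GM.Theta.Outer Fermat.Agent.GE9.Adj3

namespace Fermat.Agent.GE9.Fricke

variable {N q : ℕ} [Fact q.Prime] [NeZero N] [NeZero (N * q)] [NeZero (N * q * q)]

/-- `δ g δ⁻¹` does not depend on the level at which it is formed -/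
theorem degenOne_degenDelta (g : Gamma0 (N * q * q)) :
    degenOne N q (degenDelta (N * q) q g) = degenDelta N q (degenOne (N * q) q g) := by
  apply Subtype.ext
  apply embR_injective
  rw [degenOne_coe]
  have h1 := dlt_rel_degenDelta (N := N * q) g
  have h2 := dlt_rel_degenDelta (N := N) (degenOne (N * q) q g)
  rw [degenOne_coe, h1] at h2
  exact mul_right_cancel h2

/-- `res_δ' ∘ res = res' ∘ res_δ` -/
theorem resDP_resP (x : Lam N) :
    resDP ℤ (N * q) q (resP ℤ N q x) = resP ℤ (N * q) q (resDP ℤ N q x) := by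
  apply Subtype.ext
  rw [resDP_coe, resP_coe, resP_coe, resDP_coe]
  refine AddMonoidHom.ext fun g => ?_
  obtain ⟨g, rfl⟩ : ∃ g' : Gamma0 (N * q * q), Additive.ofMul g' = g := ⟨Additive.toMul g, rfl⟩
  rw [resD_apply, res_apply, res_apply, resD_apply, degenOne_degenDelta]

theorem frP_al0 (x : Lam N) : frP (N * q * q) ℤ (al0 N q x) = al2 N q (frP N ℤ x) := by
  show frP (N * q * q) ℤ (resP ℤ (N * q) q (resP ℤ N q x)) = resDP ℤ (N * q) q (resDP ℤ N q _)
  rw [frP_resP, frP_resP]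

theorem frP_al2 (x : Lam N) : frP (N * q * q) ℤ (al2 N q x) = al0 N q (frP N ℤ x) := by
  show frP (N * q * q) ℤ (resDP ℤ (N * q) q (resDP ℤ N q x)) = resP ℤ (N * q) q (resP ℤ N q _)
  rw [frP_resDP, frP_resDP]

theorem frP_al1 (x : Lam N) : frP (N * q * q) ℤ (al1 N q x) = al1 N q (frP N ℤ x) := by
  show frP (N * q * q) ℤ (resP ℤ (N * q) q (resDP ℤ N q x)) = resP ℤ (N * q) q (resDP ℤ N q _)
  rw [frP_resP, frP_resDP, resDP_resP]

/-- **`W (α₃ (u₀, u₁, u₂)) = α₃ (W u₂, W u₁, W u₀)`** -/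
theorem frP_alpha3 (u : Fin 3 → Lam N) :
    frP (N * q * q) ℤ (alpha3 N q u)
      = alpha3 N q ![frP N ℤ (u 2), frP N ℤ (u 1), frP N ℤ (u 0)] := by
  rw [alpha3_apply, alpha3_apply, map_add, map_add, frP_al0, frP_al1, frP_al2]
  show _ = al0 N q (frP N ℤ (u 2)) + al1 N q (frP N ℤ (u 1)) + al2 N q (frP N ℤ (u 0))
  abel

end Fermat.Agent.GE9.Fricke
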